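import Mathlib
import Fermat.Prelude.Def_EllipticCurve_ZeroComponentAt
import Fermat.Prelude.Def_FLTPrelim_Ramification
import Fermat.Prelude.Def_ModularCurve_HeckeModule

/-!
# Row S15 (row-lead helper975): frozen interfaces

`S15` (Mazur's Step 3) is deduced from three nodes:

* `LocStatement`  : local lemma at a multiplicative prime (elementary elliptic-curve theory);
* `GeoStatement`  : the moduli point, the cuspidal class and the reduction maps (Tower A);
* `DescStatement` : Mazur's Eisenstein descent (the wall).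

This file contains only definitions (no `sorry`).  The deduction `S15_of_nodes` is in
`Fermat/Agent/S15/Top.lean`.
-/

set_option autoImplicit false

noncomputable section

open WeierstrassCurve WeierstrassCurve.Affine

namespace Fermat.Agent.S15

/-- the absolute Galois group of `ℚ` -/
abbrev Gal : Type := AlgebraicClosure ℚ ≃ₐ[ℚ] AlgebraicClosure ℚ

/-- the points of the curve `W` over `ℚ̄` -/
abbrev Pts (W : WeierstrassCurve ℤ) : Type :=
  ((W.map (Int.castRingHom ℚ))⁄(AlgebraicClosure ℚ)).Point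

/-- **NODE LOC.** A rational point of prime order `p` which lies in the identity component at a
multiplicative prime `ℓ ≠ p` forces `p ∣ (ℓ - 1) (ℓ + 1)`. -/
def LocStatement : Prop :=
  ∀ {p : ℕ} (_hp : p.Prime) (W : WeierstrassCurve ℤ) (_hΔ : W.Δ ≠ 0) (Q : Pts W)
    (_hQfix : ∀ σ : Gal, σ • Q = Q) (_hQord : addOrderOf Q = p)
    {ℓ : ℕ} (_hℓ : ℓ.Prime) (_hℓp : ℓ ≠ p) (_hℓΔ : (ℓ : ℤ) ∣ W.Δ) (_hℓc₄ : ¬ (ℓ : ℤ) ∣ W.c₄)
    (A : ValuationSubring (AlgebraicClosure ℚ)) (_hA : A.LiesOverPrime ℓ),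
    W.InZeroComponentAt A Q → p ∣ (ℓ - 1) * (ℓ + 1)

/-- `x` is an Eisenstein vector: `T_q x = (1 + q) x` for all primes `q ≠ p`. -/
def IsEisensteinVector (p : ℕ) [NeZero p] (x : ModularCurve.JZero p) : Prop :=
  ∀ q : Nat.Primes, (q : ℕ) ≠ p →
    ModularCurve.heckeOperatorBar p q x = ((1 + (q : ℕ) : ℕ)) • x

/-- The ring of endomorphisms of `J₀(p)(ℚ̄)` generated by the `T_q`, `q ∉ S`, `q ≠ p`. -/
def heckeRingAway (p : ℕ) [NeZero p] (S : Finset ℕ) :
    Subalgebra ℤ (Module.End ℤ (ModularCurve.JZero p)) :=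
  Algebra.adjoin ℤ {T | ∃ q : Nat.Primes, (q : ℕ) ∉ S ∧ (q : ℕ) ≠ p ∧
    T = ModularCurve.heckeOperatorBar p q}

/-- A reduction map for `J₀(p)` at the prime `ℓ`: additive, injective on torsion of order prime
to `ℓ`, with kernel stable under the `T_q`, `q ≠ p, ℓ`. -/
structure IsGoodRed (p ℓ : ℕ) [NeZero p] {Y : Type} [AddCommGroup Y]
    (red : ModularCurve.JZero p →+ Y) : Prop where
  inj : ∀ (m : ℕ) (z : ModularCurve.JZero p), ¬ ℓ ∣ m → m • z = 0 → red z = 0 → z = 0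
  hecke : ∀ q : Nat.Primes, (q : ℕ) ≠ p → (q : ℕ) ≠ ℓ → ∀ z : ModularCurve.JZero p,
    red z = 0 → red (ModularCurve.heckeOperatorBar p q z) = 0

/-- **NODE GEO.** For a rational point `Q` of order `p` on `W`: the cuspidal class `c`, the class
`D` of the moduli point `(E, ⟨Q⟩)` minus a cusp, and, at every multiplicative prime `ℓ ≠ p`, a good
reduction map which sees the component of `Q`. -/
def GeoStatement : Prop :=
  ∀ (p : ℕ) [NeZero p] (_hp : p.Prime) (_hp' : p ∉ ({2, 3, 5, 7, 13} : Finset ℕ))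
    (W : WeierstrassCurve ℤ) (_hΔ : W.Δ ≠ 0) (Q : Pts W)
    (_hQfix : ∀ σ : Gal, σ • Q = Q) (_hQord : addOrderOf Q = p),
    ∃ c D : ModularCurve.JZero p,
      (∀ σ : Gal, σ • c = c) ∧ (∀ σ : Gal, σ • D = D) ∧ c ≠ 0 ∧ (p - 1) • c = 0 ∧
      IsEisensteinVector p c ∧
      ∀ (ℓ : ℕ) (_hℓ : ℓ.Prime) (_hℓp : ℓ ≠ p) (_hℓΔ : (ℓ : ℤ) ∣ W.Δ) (_hℓc₄ : ¬ (ℓ : ℤ) ∣ W.c₄)
        (A : ValuationSubring (AlgebraicClosure ℚ)) (_hA : A.LiesOverPrime ℓ),
        ∃ (Y : Type) (_ : AddCommGroup Y) (red : ModularCurve.JZero p →+ Y),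
          IsGoodRed p ℓ red ∧
          (¬ W.InZeroComponentAt A Q → red D = 0) ∧
          (W.InZeroComponentAt A Q → red D = red c ∨ red D = -red c)

/-- **NODE DESC (the wall: Mazur's Eisenstein descent).** There is a Hecke operator `t`, a
polynomial in the `T_q` with `q ∉ S ∪ {p}`, which maps the Mordell–Weil group `J₀(p)(ℚ)` into
torsion and fixes every Eisenstein vector. -/
def DescStatement : Prop :=
  ∀ (p : ℕ) [NeZero p] (_hp : p.Prime) (_hp' : p ∉ ({2, 3, 5, 7, 13} : Finset ℕ))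
    (S : Finset ℕ),
    ∃ t ∈ heckeRingAway p S,
      (∀ z : ModularCurve.JZero p, (∀ σ : Gal, σ • z = z) → ∃ m : ℕ, 0 < m ∧ m • t z = 0) ∧
      ∀ x : ModularCurve.JZero p, IsEisensteinVector p x → t x = x

end Fermat.Agent.S15

end
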