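import Fermat.Agent.S15.Skeleton
import Fermat.Agent.S15.H242.Loc
import Fermat.Agent.S54.FrobExists

/-!
# Row S15 (row-lead helper975): TOP in its weakest form

`S15_of_weak : GeoWeak → DescWeakStatement → (frozen statement S15)`.

* `GeoWeak` is `GeoStatement` of `Skeleton.lean`, except that the kernel of the reduction map at
  `ℓ` only has to be stable under the `T_q` with `q ∉ S_ℓ ∪ {p}` for some FINITE set `S_ℓ` chosen
  by GEO (so auxiliary levels `2p`, `3p` are allowed at `ℓ = 3, 2`).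
* `DescWeakStatement` is the weak descent node proposed by helper302: ONE Hecke operator `t`
  away from `S` with `t · J₀(p)(ℚ)` torsion and `t c ≠ 0` for the given rational torsion Eisenstein
  vector `c ≠ 0`.

The strong nodes of `Skeleton.lean` imply the weak ones (`geoWeak_of_geoStatement`,
`descWeak_of_descStatement`), hence `S15_of_nodes`.  The local node LOC is
`Fermat.Agent.S15.H242.step3_of_pm_one` (on main).  Everything here is sorry-free.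
-/

set_option autoImplicit false

open WeierstrassCurve WeierstrassCurve.Affine

namespace Fermat.Agent.S15

/-- A reduction map for `J₀(p)` at the prime `ℓ`: additive, injective on torsion of order prime to
`ℓ`, with kernel stable under the `T_q`, `q ∉ S ∪ {p}`. -/
structure IsGoodRedAway (p ℓ : ℕ) [NeZero p] (S : Finset ℕ) {Y : Type} [AddCommGroup Y]
    (red : ModularCurve.JZero p →+ Y) : Prop where
  inj : ∀ (m : ℕ) (z : ModularCurve.JZero p), ¬ ℓ ∣ m → m • z = 0 → red z = 0 → z = 0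
  hecke : ∀ q : Nat.Primes, (q : ℕ) ≠ p → (q : ℕ) ∉ S → ∀ z : ModularCurve.JZero p,
    red z = 0 → red (ModularCurve.heckeOperatorBar p q z) = 0

theorem IsGoodRed.away {p ℓ : ℕ} [NeZero p] {Y : Type} [AddCommGroup Y]
    {red : ModularCurve.JZero p →+ Y} (h : IsGoodRed p ℓ red) : IsGoodRedAway p ℓ {ℓ} red :=
  ⟨h.inj, fun q hqp hq z hz => h.hecke q hqp (by simpa using hq) z hz⟩

/-- **NODE GEO, weak form.** -/
def GeoWeak : Prop :=
  ∀ (p : ℕ) [NeZero p] (_hp : p.Prime) (_hp' : p ∉ ({2, 3, 5, 7, 13} : Finset ℕ))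
    (W : WeierstrassCurve ℤ) (_hΔ : W.Δ ≠ 0) (Q : Pts W)
    (_hQfix : ∀ σ : Gal, σ • Q = Q) (_hQord : addOrderOf Q = p),
    ∃ c D : ModularCurve.JZero p,
      (∀ σ : Gal, σ • c = c) ∧ (∀ σ : Gal, σ • D = D) ∧ c ≠ 0 ∧ (p - 1) • c = 0 ∧
      IsEisensteinVector p c ∧
      ∀ (ℓ : ℕ) (_hℓ : ℓ.Prime) (_hℓp : ℓ ≠ p) (_hℓΔ : (ℓ : ℤ) ∣ W.Δ) (_hℓc₄ : ¬ (ℓ : ℤ) ∣ W.c₄)
        (A : ValuationSubring (AlgebraicClosure ℚ)) (_hA : A.LiesOverPrime ℓ),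
        ∃ (S : Finset ℕ) (Y : Type) (_ : AddCommGroup Y) (red : ModularCurve.JZero p →+ Y),
          IsGoodRedAway p ℓ S red ∧
          (¬ W.InZeroComponentAt A Q → red D = 0) ∧
          (W.InZeroComponentAt A Q → red D = red c ∨ red D = -red c)

/-- **NODE DESC, weak form** (helper302): for ONE non-zero rational torsion Eisenstein vector `c`
there is a Hecke operator `t` away from `S` which maps `J₀(p)(ℚ)` into torsion and does not kill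
`c`. -/
def DescWeakStatement : Prop :=
  ∀ (p : ℕ) [NeZero p] (_hp : p.Prime) (_hp' : p ∉ ({2, 3, 5, 7, 13} : Finset ℕ))
    (S : Finset ℕ) (c : ModularCurve.JZero p) (_hc : ∀ σ : Gal, σ • c = c) (_hc0 : c ≠ 0)
    (_hct : ∃ m : ℕ, 0 < m ∧ m • c = 0) (_hcE : IsEisensteinVector p c),
    ∃ t ∈ heckeRingAway p S,
      (∀ z : ModularCurve.JZero p, (∀ σ : Gal, σ • z = z) → ∃ m : ℕ, 0 < m ∧ m • t z = 0) ∧
      t c ≠ 0

theorem geoWeak_of_geoStatement (h : GeoStatement) : GeoWeak := by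
  intro p _ hp hp' W hΔ Q hQfix hQord
  obtain ⟨c, D, h1, h2, h3, h4, h5, h6⟩ := h p hp hp' W hΔ Q hQfix hQord
  refine ⟨c, D, h1, h2, h3, h4, h5, fun ℓ hℓ hℓp hℓΔ hℓc₄ A hA => ?_⟩
  obtain ⟨Y, i, red, hg, h7, h8⟩ := h6 ℓ hℓ hℓp hℓΔ hℓc₄ A hA
  exact ⟨{ℓ}, Y, i, red, hg.away, h7, h8⟩

theorem descWeakStatement_of_descStatement (h : DescStatement) : DescWeakStatement := by
  intro p _ hp hp' S c _ hc0 _ hcE
  obtain ⟨t, ht, h1, h2⟩ := h p hp hp' S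
  exact ⟨t, ht, h1, by rw [h2 c hcE]; exact hc0⟩

theorem heckeRingAway_mono (p : ℕ) [NeZero p] {S S' : Finset ℕ} (h : S ⊆ S') :
    heckeRingAway p S' ≤ heckeRingAway p S := by
  unfold heckeRingAway
  apply Algebra.adjoin_mono
  rintro T ⟨q, hq, hqp, rfl⟩
  exact ⟨q, fun hqS => hq (h hqS), hqp, rfl⟩

/-- The kernel of a good reduction map away from `S` is stable under the Hecke ring away from
`S`. -/
theorem red_eq_zero_of_mem_heckeRingAway' {p ℓ : ℕ} [NeZero p] {Y : Type} [AddCommGroup Y]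
    {red : ModularCurve.JZero p →+ Y} {S : Finset ℕ} (hred : IsGoodRedAway p ℓ S red)
    {t : Module.End ℤ (ModularCurve.JZero p)} (ht : t ∈ heckeRingAway p S) :
    ∀ z : ModularCurve.JZero p, red z = 0 → red (t z) = 0 := by
  unfold heckeRingAway at ht
  induction ht using Algebra.adjoin_induction with
  | mem T hT =>
    obtain ⟨q, hqS, hqp, rfl⟩ := hT
    intro z hz
    exact hred.hecke q hqp hqS z hz
  | algebraMap r =>
    intro z hz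
    rw [Module.algebraMap_end_apply, map_zsmul, hz, smul_zero]
  | add a b _ _ ha hb =>
    intro z hz
    rw [LinearMap.add_apply, map_add, ha z hz, hb z hz, add_zero]
  | mul a b _ _ ha hb =>
    intro z hz
    rw [Module.End.mul_apply]
    exact ha _ (hb z hz)

/-- A torsion point killed by injective-on-torsion reduction maps at `2` and at `3` is zero. -/
theorem eq_zero_of_red_two_three' {p : ℕ} [NeZero p] {Y₂ Y₃ : Type} [AddCommGroup Y₂]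
    [AddCommGroup Y₃] {red₂ : ModularCurve.JZero p →+ Y₂} {red₃ : ModularCurve.JZero p →+ Y₃}
    {S₂ S₃ : Finset ℕ} (h₂ : IsGoodRedAway p 2 S₂ red₂) (h₃ : IsGoodRedAway p 3 S₃ red₃)
    (z : ModularCurve.JZero p) {m : ℕ} (hm0 : 0 < m) (hm : m • z = 0) (hz₂ : red₂ z = 0)
    (hz₃ : red₃ z = 0) : z = 0 := by
  obtain ⟨e, n', hn', rfl⟩ := Nat.exists_eq_pow_mul_and_not_dvd hm0.ne' 2 (by norm_num)
  have h1 : (2 ^ e) • z = 0 := by
    refine h₂.inj n' ((2 ^ e) • z) hn' ?_ ?_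
    · rw [← mul_smul, mul_comm]; exact hm
    · rw [map_nsmul, hz₂, smul_zero]
  refine h₃.inj (2 ^ e) z ?_ h1 hz₃
  intro h
  have := Nat.Prime.dvd_of_dvd_pow Nat.prime_three h
  omega

/-- `ℓ ∤ p - 1` when `p ∣ ℓ ∓ 1`, for primes `ℓ` and `p ≠ 2, 3`. -/
theorem not_dvd_pred_of_pm_one' {p ℓ : ℕ} (hp : p.Prime) (hℓ : ℓ.Prime) (hp2 : p ≠ 2)
    (hp3 : p ≠ 3) (hpm : p ∣ ℓ - 1 ∨ p ∣ ℓ + 1) : ¬ ℓ ∣ p - 1 := by
  intro h
  have hp1 := hp.two_le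
  have hℓ1 := hℓ.two_le
  have h1 : ℓ ≤ p - 1 := Nat.le_of_dvd (by omega) h
  rcases hpm with h2 | h2
  · have := Nat.le_of_dvd (by omega) h2
    omega
  · have h3 := Nat.le_of_dvd (by omega) h2
    have hpℓ : p = ℓ + 1 := by omega
    rcases hℓ.eq_two_or_odd with h4 | h4
    · omega
    · rcases hp.eq_two_or_odd with h5 | h5 <;> omega

/-- **S15 from the weak nodes.** -/
theorem S15_of_weak (hgeo : GeoWeak) (hdesc : DescWeakStatement)
    {p : ℕ} (hp : p.Prime) (hp' : p ∉ ({2, 3, 5, 7, 13} : Finset ℕ))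
    (W : WeierstrassCurve ℤ) (hΔ : W.Δ ≠ 0)
    (Q : ((W.map (Int.castRingHom ℚ))⁄(AlgebraicClosure ℚ)).Point)
    (hQfix : ∀ σ : AlgebraicClosure ℚ ≃ₐ[ℚ] AlgebraicClosure ℚ, σ • Q = Q)
    (hQord : addOrderOf Q = p)
    (h2Δ : (2 : ℤ) ∣ W.Δ) (h2c₄ : ¬ (2 : ℤ) ∣ W.c₄)
    (h2 : ∀ A : ValuationSubring (AlgebraicClosure ℚ), A.LiesOverPrime 2 →
      ¬ W.InZeroComponentAt A Q)
    (h3Δ : (3 : ℤ) ∣ W.Δ) (h3c₄ : ¬ (3 : ℤ) ∣ W.c₄)
    (h3 : ∀ A : ValuationSubring (AlgebraicClosure ℚ), A.LiesOverPrime 3 →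
      ¬ W.InZeroComponentAt A Q)
    {ℓ : ℕ} (hℓ : ℓ.Prime) (hℓp : ℓ ≠ p) (hℓΔ : (ℓ : ℤ) ∣ W.Δ) (hℓc₄ : ¬ (ℓ : ℤ) ∣ W.c₄)
    (A : ValuationSubring (AlgebraicClosure ℚ)) (hA : A.LiesOverPrime ℓ) :
    ¬ W.InZeroComponentAt A Q := by
  refine H242.step3_of_pm_one hp W Q hQfix hQord hℓ hℓp hℓΔ hℓc₄ A hA (fun hpm hQ0 => ?_)
  haveI : NeZero p := ⟨hp.ne_zero⟩
  have hp2 : (2 : ℕ) ≠ p := by rintro rfl; simp at hp'
  have hp3 : (3 : ℕ) ≠ p := by rintro rfl; simp at hp'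
  obtain ⟨c, D, hcfix, hDfix, hc0, hcord, hcE, hred⟩ := hgeo p hp hp' W hΔ Q hQfix hQord
  obtain ⟨A₂, hA₂⟩ := S54.exists_valuationSubring_liesOver 2 Nat.prime_two
  obtain ⟨A₃, hA₃⟩ := S54.exists_valuationSubring_liesOver 3 Nat.prime_three
  obtain ⟨S₂, Y₂, _, red₂, hg₂, hn₂, -⟩ :=
    hred 2 Nat.prime_two hp2 (by exact_mod_cast h2Δ) (by exact_mod_cast h2c₄) A₂ hA₂
  obtain ⟨S₃, Y₃, _, red₃, hg₃, hn₃, -⟩ :=
    hred 3 Nat.prime_three hp3 (by exact_mod_cast h3Δ) (by exact_mod_cast h3c₄) A₃ hA₃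
  obtain ⟨Sℓ, Yℓ, _, redℓ, hgℓ, -, hzℓ⟩ := hred ℓ hℓ hℓp hℓΔ hℓc₄ A hA
  have hp1 : 0 < p - 1 := by have := hp.two_le; omega
  obtain ⟨t, htmem, httors, htc⟩ :=
    hdesc p hp hp' (S₂ ∪ S₃ ∪ Sℓ) c hcfix hc0 ⟨p - 1, hp1, hcord⟩ hcE
  have ht₂ : t ∈ heckeRingAway p S₂ :=
    heckeRingAway_mono p (fun x hx => by simp [hx]) htmem
  have ht₃ : t ∈ heckeRingAway p S₃ :=
    heckeRingAway_mono p (fun x hx => by simp [hx]) htmem
  have htℓ : t ∈ heckeRingAway p Sℓ :=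
    heckeRingAway_mono p (fun x hx => by simp [hx]) htmem
  -- `t D = 0`
  have htD₂ : red₂ (t D) = 0 :=
    red_eq_zero_of_mem_heckeRingAway' hg₂ ht₂ D (hn₂ (h2 A₂ hA₂))
  have htD₃ : red₃ (t D) = 0 :=
    red_eq_zero_of_mem_heckeRingAway' hg₃ ht₃ D (hn₃ (h3 A₃ hA₃))
  obtain ⟨m, hm0, hm⟩ := httors D hDfix
  have htD : t D = 0 := eq_zero_of_red_two_three' hg₂ hg₃ (t D) hm0 hm htD₂ htD₃
  -- `red_ℓ (t c) = 0`
  have hcℓ : redℓ (t c) = 0 := by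
    rcases hzℓ hQ0 with h | h
    · have h0 : redℓ (D - c) = 0 := by rw [map_sub, h, sub_self]
      have h1 := red_eq_zero_of_mem_heckeRingAway' hgℓ htℓ (D - c) h0
      rw [map_sub, htD, zero_sub, map_neg, neg_eq_zero] at h1
      exact h1
    · have h0 : redℓ (D + c) = 0 := by rw [map_add, h, neg_add_cancel]
      have h1 := red_eq_zero_of_mem_heckeRingAway' hgℓ htℓ (D + c) h0
      rw [map_add, htD, zero_add] at h1
      exact h1
  have htc1 : (p - 1) • t c = 0 := by rw [← map_nsmul, hcord, map_zero]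
  exact htc (hgℓ.inj (p - 1) (t c)
    (not_dvd_pred_of_pm_one' hp hℓ (Ne.symm hp2) (Ne.symm hp3) hpm) htc1 hcℓ)

/-- **S15 from the strong nodes of `Skeleton.lean`.** -/
theorem S15_of_strong (hgeo : GeoStatement) (hdesc : DescStatement)
    {p : ℕ} (hp : p.Prime) (hp' : p ∉ ({2, 3, 5, 7, 13} : Finset ℕ))
    (W : WeierstrassCurve ℤ) (hΔ : W.Δ ≠ 0)
    (Q : ((W.map (Int.castRingHom ℚ))⁄(AlgebraicClosure ℚ)).Point)
    (hQfix : ∀ σ : AlgebraicClosure ℚ ≃ₐ[ℚ] AlgebraicClosure ℚ, σ • Q = Q)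
    (hQord : addOrderOf Q = p)
    (h2Δ : (2 : ℤ) ∣ W.Δ) (h2c₄ : ¬ (2 : ℤ) ∣ W.c₄)
    (h2 : ∀ A : ValuationSubring (AlgebraicClosure ℚ), A.LiesOverPrime 2 →
      ¬ W.InZeroComponentAt A Q)
    (h3Δ : (3 : ℤ) ∣ W.Δ) (h3c₄ : ¬ (3 : ℤ) ∣ W.c₄)
    (h3 : ∀ A : ValuationSubring (AlgebraicClosure ℚ), A.LiesOverPrime 3 →
      ¬ W.InZeroComponentAt A Q)
    {ℓ : ℕ} (hℓ : ℓ.Prime) (hℓp : ℓ ≠ p) (hℓΔ : (ℓ : ℤ) ∣ W.Δ) (hℓc₄ : ¬ (ℓ : ℤ) ∣ W.c₄)
    (A : ValuationSubring (AlgebraicClosure ℚ)) (hA : A.LiesOverPrime ℓ) :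
    ¬ W.InZeroComponentAt A Q :=
  S15_of_weak (geoWeak_of_geoStatement hgeo) (descWeakStatement_of_descStatement hdesc)
    hp hp' W hΔ Q hQfix hQord h2Δ h2c₄ h2 h3Δ h3c₄ h3 hℓ hℓp hℓΔ hℓc₄ A hA

end Fermat.Agent.S15
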